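/-
Lib item 57 (n = 3, 5), helper46: x-coordinate of the double of an affine point, in terms of
`Ψ₂Sq` and `Φ₂`, and the evaluated polynomial identities needed for 3-, 4- and 5-torsion.
-/
import Mathlib.AlgebraicGeometry.EllipticCurve.Affine.Point
import Mathlib.AlgebraicGeometry.EllipticCurve.DivisionPolynomial.Basic
import Mathlib.Tactic.LinearCombination
import Mathlib.Tactic.FieldSimp

set_option autoImplicit false

namespace Fermat.Agent.Lib.Torsion35

open WeierstrassCurve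

variable {F : Type*} [Field F] (W : WeierstrassCurve.Affine F)

/-- value of `Ψ₂Sq` at `x` -/
def vB (x : F) : F := 4 * x ^ 3 + W.b₂ * x ^ 2 + 2 * W.b₄ * x + W.b₆

/-- value of `Φ₂` at `x` -/
def vA (x : F) : F := x ^ 4 - W.b₄ * x ^ 2 - 2 * W.b₆ * x - W.b₈

/-- value of `Ψ₃` at `x` -/
def vP3 (x : F) : F := 3 * x ^ 4 + W.b₂ * x ^ 3 + 3 * W.b₄ * x ^ 2 + 3 * W.b₆ * x + W.b₈

/-- value of `preΨ₄` at `x` -/
def vQ4 (x : F) : F :=
  2 * x ^ 6 + W.b₂ * x ^ 5 + 5 * W.b₄ * x ^ 4 + 10 * W.b₆ * x ^ 3 + 10 * W.b₈ * x ^ 2 +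
    (W.b₂ * W.b₈ - W.b₄ * W.b₆) * x + (W.b₄ * W.b₈ - W.b₆ ^ 2)

/-- value of `preΨ₅ = Ψ₅` at `x` -/
def vP5 (x : F) : F := vQ4 W x * vB W x ^ 2 - vP3 W x ^ 3

lemma vP3_eq (x : F) : vP3 W x = x * vB W x - vA W x := by
  simp only [vP3, vA, vB]; ring

/-- `ψ₂(P)² = Ψ₂Sq(x)` on the curve. -/
lemma psi2_sq {x y : F} (h : W.Equation x y) : (y - W.negY x y) ^ 2 = vB W x := by
  rw [Affine.equation_iff] at h
  simp only [Affine.negY, vB, b₂, b₄, b₆]
  linear_combination 4 * h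

/-- The numerator of the tangent slope. -/
def vN (x y : F) : F := 3 * x ^ 2 + 2 * W.a₂ * x + W.a₄ - W.a₁ * y

/-- Key doubling identity on the curve, before dividing by `ψ₂²`. -/
lemma doubling_key {x y : F} (h : W.Equation x y) :
    vN W x y ^ 2 + W.a₁ * vN W x y * (y - W.negY x y) - (W.a₂ + 2 * x) * (y - W.negY x y) ^ 2 =
      vA W x := by
  rw [Affine.equation_iff] at h
  simp only [vN, vA, b₄, b₆, b₈, Affine.negY]
  linear_combination (-(W.a₁ ^ 2) - 4 * W.a₂ - 8 * x) * h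

/-- `Ψ₃(x) = (3x + a₂) ψ₂² - a₁ N ψ₂ - N²` on the curve. -/
lemma vP3_eq_of_equation {x y : F} (h : W.Equation x y) :
    vP3 W x = (3 * x + W.a₂) * (y - W.negY x y) ^ 2 - W.a₁ * vN W x y * (y - W.negY x y) -
      vN W x y ^ 2 := by
  rw [vP3_eq, ← doubling_key W h, ← psi2_sq W h]
  ring

/-- If `ψ₂(P) = 0` and `Ψ₃(x) = 0` then `P` is singular. -/
lemma psi2_ne_zero_of_vP3_eq_zero {x y : F} (h : W.Nonsingular x y) (h3 : vP3 W x = 0) :
    y ≠ W.negY x y := by
  intro hy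
  have hd : y - W.negY x y = 0 := sub_eq_zero.mpr hy
  have hN : vN W x y ^ 2 = 0 := by
    have := vP3_eq_of_equation W h.1
    rw [h3, hd] at this
    linear_combination this
  have hN0 : vN W x y = 0 := by simpa using hN
  rw [Affine.nonsingular_iff] at h
  rcases h.2 with h1 | h2
  · apply h1
    simp only [vN] at hN0
    linear_combination -hN0
  · apply h2
    simp only [Affine.negY] at hy
    exact hy

variable [DecidableEq F]

/-- The `x`-coordinate of `2P`, multiplied by `Ψ₂Sq(x)`, is `Φ₂(x)`. -/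
lemma addX_self_mul {x y : F} (h : W.Equation x y) (hy : y ≠ W.negY x y) :
    W.addX x x (W.slope x x y y) * vB W x = vA W x := by
  have hne : y - W.negY x y ≠ 0 := sub_ne_zero.mpr hy
  rw [Affine.slope_of_Y_ne rfl hy, ← psi2_sq W h, ← doubling_key W h]
  simp only [Affine.addX, vN]
  field_simp
  ring

end Fermat.Agent.Lib.Torsion35
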