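/-
Lib item 57 (n = 5), helper46: evaluated polynomial identities for 4- and 5-torsion.
-/
import Fermat.Agent.Lib.Torsion35.Doubling

set_option autoImplicit false

namespace Fermat.Agent.Lib.Torsion35

open WeierstrassCurve

variable {F : Type*} [Field F] (W : WeierstrassCurve.Affine F)

/-- `Ψ₂Sq(Φ₂/Ψ₂Sq) Ψ₂Sq³`, homogenised. -/
def vG (x : F) : F :=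
  4 * vA W x ^ 3 + W.b₂ * vA W x ^ 2 * vB W x + 2 * W.b₄ * vA W x * vB W x ^ 2 + W.b₆ * vB W x ^ 3

/-- `Φ₂(Φ₂/Ψ₂Sq) Ψ₂Sq⁴`, homogenised. -/
def vH (x : F) : F :=
  vA W x ^ 4 - W.b₄ * vA W x ^ 2 * vB W x ^ 2 - 2 * W.b₆ * vA W x * vB W x ^ 3 - W.b₈ * vB W x ^ 4

/-- `Ψ₂Sq(x(2P)) Ψ₂Sq(x)³ = preΨ₄(x)²`. -/
lemma vG_eq (x : F) : vG W x = vQ4 W x ^ 2 := by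
  simp only [vG, vQ4, vA, vB]
  linear_combination (-W.b₂^2*x^6 - 6*W.b₂*W.b₄*x^5 - 7*W.b₂*W.b₆*x^4 - 4*W.b₂*W.b₈*x^3 - 8*W.b₂*x^7 - 8*W.b₄^2*x^4 - 16*W.b₄*W.b₆*x^3 - 8*W.b₄*W.b₈*x^2 - 28*W.b₄*x^6 - 7*W.b₆^2*x^2 - 6*W.b₆*W.b₈*x - 38*W.b₆*x^5 - W.b₈^2 - 22*W.b₈*x^4 - 13*x^8) * W.b_relation

/-- `Φ₂(x(2P)) Ψ₂Sq(x)⁴ - x Ψ₂Sq(x(2P)) Ψ₂Sq(x)⁴ = - Ψ₃(x) Ψ₅(x)`. -/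
lemma vH_eq (x : F) : vH W x - x * vB W x * vG W x = -(vP3 W x * vP5 W x) := by
  simp only [vH, vG, vP5, vP3, vQ4, vA, vB]
  linear_combination (W.b₂^3*x^9 + 7*W.b₂^2*W.b₄*x^8 + 5*W.b₂^2*W.b₆*x^7 + W.b₂^2*W.b₈*x^6 + 11*W.b₂^2*x^10 + 16*W.b₂*W.b₄^2*x^7 + 22*W.b₂*W.b₄*W.b₆*x^6 + 4*W.b₂*W.b₄*W.b₈*x^5 + 52*W.b₂*W.b₄*x^9 + 7*W.b₂*W.b₆^2*x^5 + 2*W.b₂*W.b₆*W.b₈*x^4 + 38*W.b₂*W.b₆*x^8 + 8*W.b₂*W.b₈*x^7 + 40*W.b₂*x^11 + 12*W.b₄^3*x^6 + 24*W.b₄^2*W.b₆*x^5 + 4*W.b₄^2*W.b₈*x^4 + 60*W.b₄^2*x^8 + 15*W.b₄*W.b₆^2*x^4 + 4*W.b₄*W.b₆*W.b₈*x^3 + 84*W.b₄*W.b₆*x^7 + 16*W.b₄*W.b₈*x^6 + 96*W.b₄*x^10 + 3*W.b₆^3*x^3 + W.b₆^2*W.b₈*x^2 + 27*W.b₆^2*x^6 + 8*W.b₆*W.b₈*x^5 + 72*W.b₆*x^9 + 16*W.b₈*x^8 + 48*x^12) *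 W.b_relation

end Fermat.Agent.Lib.Torsion35
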