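/-
Lib item 57 (n = 3), helper46: an affine point `P = (x, y)` of a Weierstrass curve over a field
satisfies `3 • P = 0` iff `Ψ₃(x) = 0`.
-/
import Fermat.Agent.Lib.Torsion35.Doubling

set_option autoImplicit false

namespace Fermat.Agent.Lib.Torsion35

open WeierstrassCurve WeierstrassCurve.Affine

variable {F : Type*} [Field F] [DecidableEq F] (W : WeierstrassCurve.Affine F)

omit [DecidableEq F] in
lemma vB_ne_zero {x y : F} (h : W.Equation x y) (hy : y ≠ W.negY x y) : vB W x ≠ 0 := by
  rw [← psi2_sq W h]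
  exact pow_ne_zero 2 (sub_ne_zero.mpr hy)

omit [DecidableEq F] in
lemma vB_eq_zero_iff {x y : F} (h : W.Equation x y) : vB W x = 0 ↔ y = W.negY x y := by
  rw [← psi2_sq W h, sq_eq_zero_iff, sub_eq_zero]

/-- `2 • P = 0` iff `ψ₂(P) = 0`. -/
lemma add_self_eq_zero_iff {x y : F} (h : W.Nonsingular x y) :
    Point.some x y h + Point.some x y h = 0 ↔ y = W.negY x y := by
  constructor
  · intro h2
    by_contra hy
    rw [Point.add_self_of_Y_ne hy] at h2
    exact Point.some_ne_zero _ h2
  · intro hy
    exact Point.add_self_of_Y_eq hy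

/-- The double of an affine point with `ψ₂(P) ≠ 0` is affine with `x`-coordinate `Φ₂/Ψ₂Sq`. -/
lemma exists_add_self {x y : F} (h : W.Nonsingular x y) (hy : y ≠ W.negY x y) :
    ∃ (x₂ y₂ : F) (h₂ : W.Nonsingular x₂ y₂),
      Point.some x y h + Point.some x y h = Point.some x₂ y₂ h₂ ∧ x₂ * vB W x = vA W x :=
  ⟨_, _, _, Point.add_self_of_Y_ne hy, addX_self_mul W h.1 hy⟩

omit [DecidableEq F] in
/-- Two affine points with the same `x`-coordinate are equal or opposite. -/
lemma eq_or_eq_neg_of_x_eq {x y y' : F} (h : W.Nonsingular x y) (h' : W.Nonsingular x y') :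
    Point.some x y h = Point.some x y' h' ∨ Point.some x y h = -Point.some x y' h' :=
  Point.X_eq_iff.mp rfl

/-- `3 • P = 0` iff `Ψ₃(x(P)) = 0`, in the form `P + P = -P`. -/
theorem add_self_eq_neg_iff {x y : F} (h : W.Nonsingular x y) :
    Point.some x y h + Point.some x y h = -Point.some x y h ↔ vP3 W x = 0 := by
  constructor
  · intro h3
    have hy : y ≠ W.negY x y := by
      intro hy
      rw [Point.add_self_of_Y_eq hy] at h3
      exact Point.some_ne_zero _ (neg_eq_zero.mp h3.symm)
    obtain ⟨x₂, y₂, h₂, h22, hx₂⟩ := exists_add_self W h hy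
    rw [h22, Point.neg_some] at h3
    have hx : x₂ = x := by
      injection h3
    rw [vP3_eq, ← hx₂, hx]
    ring
  · intro h3
    have hy : y ≠ W.negY x y := psi2_ne_zero_of_vP3_eq_zero W h h3
    obtain ⟨x₂, y₂, h₂, h22, hx₂⟩ := exists_add_self W h hy
    have hB : vB W x ≠ 0 := vB_ne_zero W h.1 hy
    have hx : x₂ = x := by
      rw [vP3_eq] at h3
      have : x₂ * vB W x = x * vB W x := by rw [hx₂]; linear_combination -h3
      exact mul_right_cancel₀ hB this
    subst hx
    rw [h22]
    rcases eq_or_eq_neg_of_x_eq W h₂ h with h' | h'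
    · exfalso
      rw [h'] at h22
      have : Point.some x₂ y h = 0 := by
        have := congrArg (fun P => P - Point.some x₂ y h) h22
        simp at this
      exact Point.some_ne_zero _ this
    · exact h'

/-- `3 • P = 0` iff `Ψ₃(x(P)) = 0`. -/
theorem three_nsmul_eq_zero_iff {x y : F} (h : W.Nonsingular x y) :
    3 • Point.some x y h = 0 ↔ vP3 W x = 0 := by
  rw [← add_self_eq_neg_iff W h]
  constructor
  · intro h3
    rw [eq_neg_iff_add_eq_zero, ← h3]
    simp only [succ_nsmul, zero_nsmul, zero_add]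
  · intro h3
    rw [eq_neg_iff_add_eq_zero] at h3
    rw [← h3]
    simp only [succ_nsmul, zero_nsmul, zero_add]

end Fermat.Agent.Lib.Torsion35
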