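/-
Lib item 57 (n = 5), helper46: an affine point `P = (x, y)` of a Weierstrass curve over a field
satisfies `5 • P = 0` iff `Ψ₅(x) = 0`; and `4 • P = 0` iff `ψ₂(P) preΨ₄(x) = 0`.
-/
import Fermat.Agent.Lib.Torsion35.Three
import Fermat.Agent.Lib.Torsion35.Ident

set_option autoImplicit false

namespace Fermat.Agent.Lib.Torsion35

open WeierstrassCurve WeierstrassCurve.Affine

variable {F : Type*} [Field F] (W : WeierstrassCurve.Affine F)

/-- If `x₂ Ψ₂Sq(x) = Φ₂(x)` then `Ψ₂Sq(x₂) Ψ₂Sq(x)³ = preΨ₄(x)²`. -/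
lemma vB_mul_of_eq {x x₂ : F} (hx₂ : x₂ * vB W x = vA W x) :
    vB W x₂ * vB W x ^ 3 = vQ4 W x ^ 2 := by
  rw [← vG_eq, vG, ← hx₂]
  simp only [vB]
  ring

/-- If `x₂ Ψ₂Sq(x) = Φ₂(x)` then `Φ₂(x₂) Ψ₂Sq(x)⁴ = H(x)`. -/
lemma vA_mul_of_eq {x x₂ : F} (hx₂ : x₂ * vB W x = vA W x) :
    vA W x₂ * vB W x ^ 4 = vH W x := by
  rw [vH, ← hx₂]
  simp only [vA]
  ring

/-- The fundamental relation between `x(4P)` and `x(P)`. -/
lemma x4_sub_x_mul {x x₂ x₄ : F} (hx₂ : x₂ * vB W x = vA W x) (hx₄ : x₄ * vB W x₂ = vA W x₂) :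
    (x₄ - x) * (vQ4 W x ^ 2 * vB W x) = -(vP3 W x * vP5 W x) := by
  rw [← vH_eq, ← vA_mul_of_eq W hx₂, ← hx₄, ← vG_eq]
  have := vB_mul_of_eq W hx₂
  rw [← vG_eq] at this
  linear_combination (-x₄ * vB W x) * this

variable [DecidableEq F]

omit [DecidableEq F] in
/-- `4 • P = 0` (in the form `2P + 2P = 0`) for `2P = (x₂, y₂)` iff `preΨ₄(x) = 0`. -/
lemma vQ4_eq_zero_iff {x y x₂ y₂ : F} (h : W.Nonsingular x y) (hy : y ≠ W.negY x y)
    (h₂ : W.Nonsingular x₂ y₂) (hx₂ : x₂ * vB W x = vA W x) :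
    vQ4 W x = 0 ↔ y₂ = W.negY x₂ y₂ := by
  rw [← vB_eq_zero_iff W h₂.1, ← sq_eq_zero_iff (a := vQ4 W x), ← vB_mul_of_eq W hx₂]
  simp [vB_ne_zero W h.1 hy]

/-- `5 • P = 0` iff `Ψ₅(x(P)) = 0`, in the form `2P + 2P = -P`. -/
theorem add_self_add_self_eq_neg_iff {x y : F} (h : W.Nonsingular x y) :
    (Point.some x y h + Point.some x y h) + (Point.some x y h + Point.some x y h) =
      -Point.some x y h ↔ vP5 W x = 0 := by
  constructor
  · intro h5
    have hy : y ≠ W.negY x y := by
      intro hy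
      rw [Point.add_self_of_Y_eq hy, add_zero] at h5
      exact Point.some_ne_zero _ (neg_eq_zero.mp h5.symm)
    obtain ⟨x₂, y₂, h₂, h22, hx₂⟩ := exists_add_self W h hy
    rw [h22] at h5
    have hy₂ : y₂ ≠ W.negY x₂ y₂ := by
      intro hy₂
      rw [Point.add_self_of_Y_eq hy₂] at h5
      exact Point.some_ne_zero _ (neg_eq_zero.mp h5.symm)
    obtain ⟨x₄, y₄, h₄, h44, hx₄⟩ := exists_add_self W h₂ hy₂
    rw [h44, Point.neg_some] at h5
    have hx : x₄ = x := by
      injection h5
    have key := x4_sub_x_mul W hx₂ hx₄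
    rw [hx, sub_self, zero_mul] at key
    have h35 : vP3 W x * vP5 W x = 0 := by linear_combination key
    rcases mul_eq_zero.mp h35 with h3 | h5'
    · exfalso
      have h3' := (add_self_eq_neg_iff W h).mpr h3
      rw [h22, Point.neg_some] at h3'
      injection h3' with hx' hy'
      subst hx'
      apply hy₂
      rw [hy', negY_negY]
      have := h5
      injection this with _ hy4
      -- `2P = -P`, so `2(2P) = 2(-P) = -(2P) = P`, contradiction with `4P = -P`
      have e1 : Point.some x₂ y₂ h₂ = -Point.some x₂ y h := by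
        rw [Point.neg_some]; congr
      have e2 : Point.some x₂ y₂ h₂ + Point.some x₂ y₂ h₂ = Point.some x₂ y h := by
        rw [e1, ← neg_add, h22, e1, neg_neg]
      rw [h44] at e2
      injection e2 with _ hy4'
      rw [hy4'] at hy4
      exact absurd hy4 hy
    · exact h5'
  · intro h5
    have hy : y ≠ W.negY x y := by
      intro hy
      have hB : vB W x = 0 := (vB_eq_zero_iff W h.1).mpr hy
      have h3 : vP3 W x = 0 := by
        have : vP3 W x ^ 3 = 0 := by
          rw [vP5, hB] at h5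
          linear_combination -h5
        simpa using this
      exact psi2_ne_zero_of_vP3_eq_zero W h h3 hy
    have hB : vB W x ≠ 0 := vB_ne_zero W h.1 hy
    obtain ⟨x₂, y₂, h₂, h22, hx₂⟩ := exists_add_self W h hy
    -- `Ψ₃(x) ≠ 0`, as otherwise `preΨ₄(x) = 0` and `2P = -P`, `4P = 0` give a contradiction
    have hQ4 : vQ4 W x ≠ 0 := by
      intro hQ
      have h3 : vP3 W x = 0 := by
        have : vP3 W x ^ 3 = 0 := by
          rw [vP5, hQ] at h5
          linear_combination -h5
        simpa using this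
      have hy₂ : y₂ = W.negY x₂ y₂ := (vQ4_eq_zero_iff W h hy h₂ hx₂).mp hQ
      have h3' := (add_self_eq_neg_iff W h).mpr h3
      rw [h22, Point.neg_some] at h3'
      injection h3' with hx' hy'
      subst hx'
      apply hy
      rw [hy'] at hy₂
      rw [negY_negY] at hy₂
      exact hy₂.symm
    have hy₂ : y₂ ≠ W.negY x₂ y₂ := fun hy₂ => hQ4 ((vQ4_eq_zero_iff W h hy h₂ hx₂).mpr hy₂)
    obtain ⟨x₄, y₄, h₄, h44, hx₄⟩ := exists_add_self W h₂ hy₂
    have key := x4_sub_x_mul W hx₂ hx₄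
    rw [h5, mul_zero, neg_zero] at key
    have hx : x₄ = x := by
      rcases mul_eq_zero.mp key with h0 | h0
      · exact sub_eq_zero.mp h0
      · exact absurd h0 (mul_ne_zero (pow_ne_zero 2 hQ4) hB)
    subst hx
    rw [h22, h44]
    rcases eq_or_eq_neg_of_x_eq W h₄ h with h' | h'
    · exfalso
      -- `4P = P` gives `3P = 0`, so `Ψ₃(x) = 0`, so `preΨ₄(x) = 0`
      have h3 : vP3 W x₄ = 0 := by
        rw [← three_nsmul_eq_zero_iff W h]
        have e : (Point.some x₄ y h + Point.some x₄ y h) +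
            (Point.some x₄ y h + Point.some x₄ y h) = Point.some x₄ y h := by
          rw [h22, h44, h']
        have : 3 • Point.some x₄ y h + Point.some x₄ y h = 0 + Point.some x₄ y h := by
          rw [zero_add]
          conv_rhs => rw [← e]
          simp only [succ_nsmul, zero_nsmul, zero_add]
          abel
        exact add_right_cancel this
      apply hQ4
      have : vQ4 W x₄ * vB W x₄ ^ 2 = 0 := by
        rw [vP5, h3] at h5
        linear_combination h5
      rcases mul_eq_zero.mp this with h0 | h0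
      · exact h0
      · exact absurd h0 (pow_ne_zero 2 hB)
    · exact h'

/-- `5 • P = 0` iff `Ψ₅(x(P)) = 0`. -/
theorem five_nsmul_eq_zero_iff {x y : F} (h : W.Nonsingular x y) :
    5 • Point.some x y h = 0 ↔ vP5 W x = 0 := by
  rw [← add_self_add_self_eq_neg_iff W h, eq_neg_iff_add_eq_zero]
  have : 5 • Point.some x y h = (Point.some x y h + Point.some x y h) +
      (Point.some x y h + Point.some x y h) + Point.some x y h := by
    simp only [succ_nsmul, zero_nsmul, zero_add]
    abel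
  rw [this]

end Fermat.Agent.Lib.Torsion35
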