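/-
Lib item 57 (n = 3, 5), helper46: the 3- and 5-torsion of a Weierstrass curve over a field, in
terms of Mathlib's division polynomials `Ψ₃` and `preΨ' 5`:
* `three_nsmul_eq_zero_iff_isRoot`, `five_nsmul_eq_zero_iff_isRoot`,
* `card_torsionBy_three_le`, `card_torsionBy_five_le`,
* `nontrivial_torsionBy_three`, `nontrivial_torsionBy_five` over algebraically closed fields.
-/
import Fermat.Agent.Lib.Torsion35.Five
import Mathlib.AlgebraicGeometry.EllipticCurve.DivisionPolynomial.Degree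
import Mathlib.FieldTheory.IsAlgClosed.Basic
import Mathlib.Algebra.Module.Torsion.Basic
import Mathlib.SetTheory.Cardinal.Finite

set_option autoImplicit false

namespace Fermat.Agent.Lib.Torsion35

open WeierstrassCurve WeierstrassCurve.Affine Polynomial

variable {F : Type*} [Field F] (W : WeierstrassCurve.Affine F)

lemma eval_Ψ₂Sq (x : F) : W.Ψ₂Sq.eval x = vB W x := by
  simp [WeierstrassCurve.Ψ₂Sq, vB]

lemma eval_Ψ₃ (x : F) : W.Ψ₃.eval x = vP3 W x := by
  simp [WeierstrassCurve.Ψ₃, vP3]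

lemma eval_preΨ₄ (x : F) : W.preΨ₄.eval x = vQ4 W x := by
  simp [WeierstrassCurve.preΨ₄, vQ4]

lemma preΨ'_five : W.preΨ' 5 = W.preΨ₄ * W.Ψ₂Sq ^ 2 - W.Ψ₃ ^ 3 := by
  have := W.preΨ'_odd 0
  simpa using this

lemma eval_preΨ'_five (x : F) : (W.preΨ' 5).eval x = vP5 W x := by
  rw [preΨ'_five, vP5]
  simp [eval_Ψ₂Sq, eval_Ψ₃, eval_preΨ₄]

section Points

variable [DecidableEq F]

/-- `3 • P = 0` iff `x(P)` is a root of `Ψ₃`. -/
theorem three_nsmul_eq_zero_iff_isRoot {x y : F} (h : W.Nonsingular x y) :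
    3 • Point.some x y h = 0 ↔ W.Ψ₃.IsRoot x := by
  rw [three_nsmul_eq_zero_iff, IsRoot, eval_Ψ₃]

/-- `5 • P = 0` iff `x(P)` is a root of `preΨ' 5 = Ψ₅`. -/
theorem five_nsmul_eq_zero_iff_isRoot {x y : F} (h : W.Nonsingular x y) :
    5 • Point.some x y h = 0 ↔ (W.preΨ' 5).IsRoot x := by
  rw [five_nsmul_eq_zero_iff, IsRoot, eval_preΨ'_five]

end Points

end Fermat.Agent.Lib.Torsion35
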