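/-
Lib item 57 (n = 3, 5), helper46: cardinality bounds and nontriviality for the 3- and 5-torsion
of a Weierstrass curve over a field.
-/
import Fermat.Agent.Lib.Torsion35.Main

set_option autoImplicit false

namespace Fermat.Agent.Lib.Torsion35

open WeierstrassCurve WeierstrassCurve.Affine Polynomial

variable {F : Type*} [Field F] (W : WeierstrassCurve.Affine F)

/-- The Weierstrass equation at a fixed `x`, as a monic quadratic polynomial in `y`. -/
noncomputable def yPoly (x : F) : F[X] :=
  X ^ 2 + C (W.a₁ * x + W.a₃) * X - C (x ^ 3 + W.a₂ * x ^ 2 + W.a₄ * x + W.a₆)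

lemma yPoly_natDegree (x : F) : (yPoly W x).natDegree = 2 := by
  unfold yPoly
  compute_degree!

lemma yPoly_ne_zero (x : F) : yPoly W x ≠ 0 := by
  intro h
  have := yPoly_natDegree W x
  rw [h, natDegree_zero] at this
  exact absurd this (by norm_num)

lemma isRoot_yPoly_iff (x y : F) : (yPoly W x).IsRoot y ↔ W.Equation x y := by
  rw [Affine.equation_iff', IsRoot, yPoly]
  simp only [eval_sub, eval_add, eval_pow, eval_X, eval_mul, eval_C]
  constructor <;> intro h <;> linear_combination h

/-- Embedding of points into `Option (F × F)`. -/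
def toOpt : W.Point → Option (F × F)
  | .zero => none
  | .some x y _ => some (x, y)

lemma toOpt_injective : Function.Injective (toOpt W) := by
  rintro (_ | ⟨x₁, y₁, h₁⟩) (_ | ⟨x₂, y₂, h₂⟩) h <;>
    simp only [toOpt, Option.some.injEq, Prod.mk.injEq, reduceCtorEq] at h
  · rfl
  · obtain ⟨rfl, rfl⟩ := h; rfl

variable [DecidableEq F]

/-- If the `x`-coordinates of the nonzero `n`-torsion points are roots of a nonzero polynomial `p`
then there are at most `1 + 2 deg p` such points. -/
theorem card_torsionBy_le (p : F[X]) (hp : p ≠ 0) (n : ℕ)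
    (hroot : ∀ (x y : F) (h : W.Nonsingular x y), n • Point.some x y h = 0 → p.IsRoot x) :
    Nat.card (Submodule.torsionBy ℤ W.Point (n : ℤ)) ≤ 1 + 2 * p.natDegree := by
  classical
  set S : Finset (Option (F × F)) :=
    insert none ((p.roots.toFinset.biUnion fun r =>
      (yPoly W r).roots.toFinset.image fun y => (r, y)).image some) with hS
  have hcard : S.card ≤ 1 + 2 * p.natDegree := by
    calc S.card ≤ ((p.roots.toFinset.biUnion fun r =>
          (yPoly W r).roots.toFinset.image fun y => (r, y)).image some).card + 1 :=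
          Finset.card_insert_le _ _
      _ ≤ (p.roots.toFinset.biUnion fun r =>
          (yPoly W r).roots.toFinset.image fun y => (r, y)).card + 1 :=
          Nat.add_le_add_right Finset.card_image_le 1
      _ ≤ p.roots.toFinset.card * 2 + 1 := by
          refine Nat.add_le_add_right (Finset.card_biUnion_le_card_mul _ _ _ fun r _ => ?_) 1
          calc ((yPoly W r).roots.toFinset.image fun y => (r, y)).card
              ≤ (yPoly W r).roots.toFinset.card := Finset.card_image_le
            _ ≤ Multiset.card (yPoly W r).roots := Multiset.toFinset_card_le _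
            _ ≤ (yPoly W r).natDegree := card_roots' _
            _ = 2 := yPoly_natDegree W r
      _ ≤ p.natDegree * 2 + 1 := by
          refine Nat.add_le_add_right (Nat.mul_le_mul_right 2 ?_) 1
          exact (Multiset.toFinset_card_le _).trans (card_roots' p)
      _ = 1 + 2 * p.natDegree := by ring
  have hmem : ∀ P : Submodule.torsionBy ℤ W.Point (n : ℤ), toOpt W P.1 ∈ S := by
    rintro ⟨P, hP⟩
    rw [Submodule.mem_torsionBy_iff, natCast_zsmul] at hP
    rcases P with _ | ⟨x, y, h⟩
    · simp [hS, toOpt]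
    · have hx : p.IsRoot x := hroot x y h hP
      simp only [hS, toOpt, Finset.mem_insert, reduceCtorEq, Finset.mem_image, Finset.mem_biUnion,
        Multiset.mem_toFinset, false_or]
      refine ⟨(x, y), ⟨x, (mem_roots hp).mpr hx, y, ?_, rfl⟩, rfl⟩
      exact (mem_roots (yPoly_ne_zero W x)).mpr ((isRoot_yPoly_iff W x y).mpr h.1)
  let f : Submodule.torsionBy ℤ W.Point (n : ℤ) → S := fun P => ⟨toOpt W P.1, hmem P⟩
  have hf : Function.Injective f := by
    intro P Q hPQ
    have : toOpt W P.1 = toOpt W Q.1 := congrArg Subtype.val hPQ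
    exact Subtype.ext (toOpt_injective W this)
  calc Nat.card (Submodule.torsionBy ℤ W.Point (n : ℤ)) ≤ Nat.card S :=
        Nat.card_le_card_of_injective f hf
    _ = S.card := by rw [Nat.card_eq_fintype_card, Fintype.card_coe]
    _ ≤ 1 + 2 * p.natDegree := hcard

/-- The 3-torsion has at most 9 points (when `3 ≠ 0` in `F`). -/
theorem card_torsionBy_three_le (h3 : (3 : F) ≠ 0) :
    Nat.card (Submodule.torsionBy ℤ W.Point ((3 : ℕ) : ℤ)) ≤ 9 := by
  have := card_torsionBy_le W W.Ψ₃ (W.Ψ₃_ne_zero h3) 3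
    (fun x y h hP => (three_nsmul_eq_zero_iff_isRoot W h).mp hP)
  rw [W.natDegree_Ψ₃ h3] at this
  exact this

omit [DecidableEq F] in
lemma natDegree_preΨ'_five (h5 : (5 : F) ≠ 0) : (W.preΨ' 5).natDegree = 12 := by
  have h5' : ((5 : ℕ) : F) ≠ 0 := by exact_mod_cast h5
  rw [W.natDegree_preΨ' h5']
  have : ¬ Even 5 := by decide
  rw [if_neg this]
  norm_num

/-- The 5-torsion has at most 25 points (when `5 ≠ 0` in `F`). -/
theorem card_torsionBy_five_le (h5 : (5 : F) ≠ 0) :
    Nat.card (Submodule.torsionBy ℤ W.Point ((5 : ℕ) : ℤ)) ≤ 25 := by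
  have h5' : ((5 : ℕ) : F) ≠ 0 := by exact_mod_cast h5
  have := card_torsionBy_le W (W.preΨ' 5) (W.preΨ'_ne_zero h5') 5
    (fun x y h hP => (five_nsmul_eq_zero_iff_isRoot W h).mp hP)
  rw [natDegree_preΨ'_five W h5] at this
  exact this

omit [DecidableEq F] in
/-- Over an algebraically closed field, every `x` is the `x`-coordinate of a point of an
elliptic curve. -/
lemma exists_point_of_x [IsAlgClosed F] (hΔ : W.Δ ≠ 0) (x : F) :
    ∃ (y : F) (_ : W.Nonsingular x y), True := by
  have hdeg : (yPoly W x).degree ≠ 0 := by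
    rw [degree_eq_natDegree (yPoly_ne_zero W x), yPoly_natDegree]
    norm_num
  obtain ⟨y, hy⟩ := IsAlgClosed.exists_root (yPoly W x) hdeg
  exact ⟨y, (Affine.equation_iff_nonsingular_of_Δ_ne_zero hΔ).mp
    ((isRoot_yPoly_iff W x y).mp hy), trivial⟩

/-- Over an algebraically closed field in which `3 ≠ 0`, an elliptic curve has a nonzero
3-torsion point. -/
theorem nontrivial_torsionBy_three [IsAlgClosed F] (h3 : (3 : F) ≠ 0) (hΔ : W.Δ ≠ 0) :
    Nontrivial (Submodule.torsionBy ℤ W.Point ((3 : ℕ) : ℤ)) := by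
  have hdeg : W.Ψ₃.degree ≠ 0 := by
    rw [degree_eq_natDegree (W.Ψ₃_ne_zero h3), W.natDegree_Ψ₃ h3]
    norm_num
  obtain ⟨x, hx⟩ := IsAlgClosed.exists_root W.Ψ₃ hdeg
  obtain ⟨y, h, -⟩ := exists_point_of_x W hΔ x
  have hP : Point.some x y h ∈ Submodule.torsionBy ℤ W.Point ((3 : ℕ) : ℤ) := by
    rw [Submodule.mem_torsionBy_iff, natCast_zsmul]
    exact (three_nsmul_eq_zero_iff_isRoot W h).mpr hx
  refine ⟨⟨⟨_, hP⟩, 0, fun h0 => ?_⟩⟩
  exact Point.some_ne_zero h (congrArg Subtype.val h0)

/-- Over an algebraically closed field in which `5 ≠ 0`, an elliptic curve has a nonzero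
5-torsion point. -/
theorem nontrivial_torsionBy_five [IsAlgClosed F] (h5 : (5 : F) ≠ 0) (hΔ : W.Δ ≠ 0) :
    Nontrivial (Submodule.torsionBy ℤ W.Point ((5 : ℕ) : ℤ)) := by
  have h5' : ((5 : ℕ) : F) ≠ 0 := by exact_mod_cast h5
  have hdeg : (W.preΨ' 5).degree ≠ 0 := by
    rw [degree_eq_natDegree (W.preΨ'_ne_zero h5'), natDegree_preΨ'_five W h5]
    norm_num
  obtain ⟨x, hx⟩ := IsAlgClosed.exists_root (W.preΨ' 5) hdeg
  obtain ⟨y, h, -⟩ := exists_point_of_x W hΔ x
  have hP : Point.some x y h ∈ Submodule.torsionBy ℤ W.Point ((5 : ℕ) : ℤ) := by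
    rw [Submodule.mem_torsionBy_iff, natCast_zsmul]
    exact (five_nsmul_eq_zero_iff_isRoot W h).mpr hx
  refine ⟨⟨⟨_, hP⟩, 0, fun h0 => ?_⟩⟩
  exact Point.some_ne_zero h (congrArg Subtype.val h0)

end Fermat.Agent.Lib.Torsion35
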